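import Fermat.Agent.S43.CountFin

/-!
# S43 / Tan / Dual : the counting lemma in KERNEL form

`Dm k L` = the `k`-dual of `L` with the transposed `A`-action.  `count_false_ker` = `CountAbs.count_false` applied to it:
all hypotheses are statements about kernels on `L`.
-/

set_option autoImplicit false

namespace Fermat.Agent.S43.Tan

open Module Fermat.Agent.S43.CountAbs

/-- the `k`-dual of `L` (type synonym carrying the transposed action). -/
def Dm (k L : Type*) [Field k] [AddCommGroup L] [Module k L] : Type _ := Module.Dual k L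

section inst

variable {k A L : Type*} [Field k] [CommRing A] [Algebra k A] [AddCommGroup L] [Module k L]
  [Module A L] [IsScalarTower k A L]

instance : AddCommGroup (Dm k L) := inferInstanceAs (AddCommGroup (Module.Dual k L))
instance : Module k (Dm k L) := inferInstanceAs (Module k (Module.Dual k L))
instance [FiniteDimensional k L] : FiniteDimensional k (Dm k L) :=
  inferInstanceAs (FiniteDimensional k (Module.Dual k L))

/-- evaluation. -/
def Dm.ev (f : Dm k L) : L →ₗ[k] k := f

/-- the inverse of `Dm.ev`. -/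
def Dm.of (φ : Module.Dual k L) : Dm k L := φ

@[simp] theorem Dm.ev_of (φ : Module.Dual k L) : (Dm.of φ).ev = φ := rfl

theorem Dm.ext {f g : Dm k L} (h : ∀ l, f.ev l = g.ev l) : f = g := LinearMap.ext h

@[simp] theorem Dm.ev_add (f g : Dm k L) (l : L) : (f + g).ev l = f.ev l + g.ev l := rfl
@[simp] theorem Dm.ev_zero (l : L) : (0 : Dm k L).ev l = 0 := rfl
@[simp] theorem Dm.ev_smul (c : k) (f : Dm k L) (l : L) : (c • f).ev l = c * f.ev l := rfl

/-- transposed action. -/
noncomputable instance (priority := 100) instModuleDmA : Module A (Dm k L) where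
  smul a f := (f.ev ∘ₗ (Algebra.lsmul k k L a) : L →ₗ[k] k)
  one_smul f := Dm.ext fun l => by
    change f.ev ((1 : A) • l) = f.ev l
    rw [one_smul]
  mul_smul a b f := Dm.ext fun l => by
    change f.ev ((a * b) • l) = f.ev (b • a • l)
    rw [mul_comm, mul_smul]
  smul_zero a := Dm.ext fun l => rfl
  smul_add a f g := Dm.ext fun l => rfl
  add_smul a b f := Dm.ext fun l => by
    change f.ev ((a + b) • l) = f.ev (a • l) + f.ev (b • l)
    rw [add_smul, map_add]
  zero_smul f := Dm.ext fun l => by
    change f.ev ((0 : A) • l) = 0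
    rw [zero_smul, map_zero]

@[simp] theorem Dm.ev_smulA (a : A) (f : Dm k L) (l : L) : (a • f).ev l = f.ev (a • l) := rfl

instance : IsScalarTower k A (Dm k L) where
  smul_assoc c a f := Dm.ext fun l => by
    rw [Dm.ev_smulA, Dm.ev_smul, Dm.ev_smulA, smul_assoc, map_smul, smul_eq_mul]

theorem Dm.smul_eq_zero_of {z : A} (h : ∀ l : L, z • l = 0) (f : Dm k L) : z • f = 0 :=
  Dm.ext fun l => by rw [Dm.ev_smulA, h, map_zero, Dm.ev_zero]

theorem Dm.exists_smul_ne_zero {z : A} {v : L} (h : z • v ≠ 0) : ∃ f : Dm k L, z • f ≠ 0 := by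
  by_contra hcon
  push Not at hcon
  apply h
  rw [← Module.forall_dual_apply_eq_zero_iff k]
  intro φ
  have := congrArg (fun f : Dm k L => f.ev v) (hcon (Dm.of φ))
  exact this

/-- the coannihilator of an `A`-submodule of the dual. -/
noncomputable def coann (N : Submodule A (Dm k L)) : Submodule k L :=
  Submodule.dualCoannihilator (R := k) (M := L) (N.restrictScalars k)

theorem mem_coann {N : Submodule A (Dm k L)} {l : L} : l ∈ coann N ↔ ∀ f ∈ N, f.ev l = 0 :=
  Submodule.mem_dualCoannihilator l

theorem smul_eq_zero_of_mem_coann {N : Submodule A (Dm k L)} {z : A} (hz : mulTop (Dm k L) z ≤ N)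
    {l : L} (hl : l ∈ coann N) : z • l = 0 := by
  rw [← Module.forall_dual_apply_eq_zero_iff k]
  intro φ
  exact mem_coann.1 hl (z • Dm.of φ) (hz (smul_mem_mulTop z _))

theorem mem_of_coann [FiniteDimensional k L] {N : Submodule A (Dm k L)} {f : Dm k L}
    (h : ∀ l ∈ coann N, f.ev l = 0) : f ∈ N := by
  have h1 : (Submodule.dualCoannihilator (R := k) (M := L) (N.restrictScalars k)).dualAnnihilator
      = N.restrictScalars k := Subspace.dualCoannihilator_dualAnnihilator_eq
  have h2 : f.ev ∈ (Submodule.dualCoannihilator (R := k) (M := L)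
      (N.restrictScalars k)).dualAnnihilator := by
    rw [Submodule.mem_dualAnnihilator]
    exact h
  rw [h1] at h2
  exact h2

theorem cd_eq_finrank_coann [FiniteDimensional k L] (N : Submodule A (Dm k L)) :
    cd k N = finrank k (coann N) := by
  have h1 := cd_add (k := k) N
  have h2 : finrank k (N.restrictScalars k) + finrank k (coann N) = finrank k L :=
    Subspace.finrank_add_finrank_dualCoannihilator_eq (K := k) (V := L) (N.restrictScalars k)
  have h3 : finrank k (Dm k L) = finrank k L := Subspace.dual_finrank_eq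
  omega

end inst

variable {k A L : Type*} [Field k] [CommRing A] [Algebra k A] [AddCommGroup L] [Module k L]
  [Module A L] [IsScalarTower k A L] [FiniteDimensional k L]

/-- the common kernel of a family. -/
def kerFam {ι : Type*} (k : Type*) {A : Type*} (L : Type*) [Field k] [CommRing A] [Algebra k A]
    [AddCommGroup L] [Module k L] [Module A L] [IsScalarTower k A L] (y : ι → A) : Submodule k L where
  carrier := {l | ∀ i, y i • l = 0}
  add_mem' := fun {u v} hu hv i => by rw [smul_add, hu i, hv i, add_zero]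
  zero_mem' := fun i => smul_zero _
  smul_mem' := fun c u hu i => by rw [smul_comm, hu i, smul_zero]

omit [FiniteDimensional k L] in
theorem mem_kerFam {ι : Type*} {y : ι → A} {l : L} : l ∈ kerFam k L y ↔ ∀ i, y i • l = 0 := Iff.rfl

/-- **The contradiction of the count, kernel form.** -/
theorem count_false_ker {t g r : ℕ} (P d : ℕ) (a b c : Fin t → A) (x : Fin g → A) (y : Fin r → A)
    (hrel : ∀ j (l : L), (a j ^ 2 + b j * c j) • l = 0)
    (hyP : ∀ i (l : L), y i ^ P • l = 0)
    (hnb : ∀ j, ∃ n, ∀ l : L, b j ^ n • l = 0)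
    (hnc : ∀ j, ∃ n, ∀ l : L, c j ^ n • l = 0)
    (hnx : ∀ i, ∃ n, ∀ l : L, x i ^ n • l = 0)
    (hy : ∀ i (l : L), (∀ j, a j • l = 0) → (∀ j, b j • l = 0) → (∀ j, c j • l = 0) →
      (∀ i', x i' • l = 0) → y i • l = 0)
    (hA : ∃ v : L, (∏ i, y i ^ (P - 1)) • v ≠ 0)
    (hB : finrank k (kerFam k L y) ≤ d)
    (hdim : 2 * t + g < r)
    (hP : d * 2 ^ t * (d * (r + 1)) ^ (2 * t + g) < P) : False := by
  refine count_false (k := k) (L := Dm k L) P d a b c x y
    (fun j f => Dm.smul_eq_zero_of (hrel j) f) (fun i f => Dm.smul_eq_zero_of (hyP i) f)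
    (fun j => (hnb j).imp fun n h f => Dm.smul_eq_zero_of h f)
    (fun j => (hnc j).imp fun n h f => Dm.smul_eq_zero_of h f)
    (fun j => (hnx j).imp fun n h f => Dm.smul_eq_zero_of h f) ?_ ?_ ?_ hdim hP
  · intro i
    rintro _ ⟨f, rfl⟩
    simp only [LinearMap.lsmul_apply]
    refine mem_of_coann fun l hl => ?_
    rw [Dm.ev_smulA, hy i l, map_zero]
    · exact fun j => smul_eq_zero_of_mem_coann
        (le_trans (le_iSup (fun j => mulTop (Dm k L) (a j)) j) le_sup_right) hl
    · exact fun j => smul_eq_zero_of_mem_coann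
        (le_trans (le_iSup (fun j => mulTop (Dm k L) (b j)) j)
          (le_sup_of_le_left (le_sup_of_le_left le_sup_left))) hl
    · exact fun j => smul_eq_zero_of_mem_coann
        (le_trans (le_iSup (fun j => mulTop (Dm k L) (c j)) j)
          (le_sup_of_le_left (le_sup_of_le_left le_sup_right))) hl
    · exact fun j => smul_eq_zero_of_mem_coann
        (le_trans (le_iSup (fun j => mulTop (Dm k L) (x j)) j)
          (le_sup_of_le_left le_sup_right)) hl
  · obtain ⟨v, hv⟩ := hA
    exact Dm.exists_smul_ne_zero hv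
  · rw [cd_eq_finrank_coann]
    refine le_trans (Submodule.finrank_mono ?_) hB
    intro l hl i
    exact smul_eq_zero_of_mem_coann (le_iSup (fun j => mulTop (Dm k L) (y j)) i) hl

end Fermat.Agent.S43.Tan
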