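import Fermat.Agent.S43.Tan.Sel

/-!
# S43 / Tan / Rep : producers of `SelProps`

* `selProps_of_rep` : `R` is the matrix of a `GaloisRepAdic A` which has cyclotomic determinant, is flat at `p`, unramified
  outside `S'`, unipotent on inertia at `Sram`;
* `selProps_of_fun` : the same from function level properties of `R`, flatness of the infinitesimal lifts being a hypothesis.
-/

set_option autoImplicit false

open Matrix IsLocalRing

noncomputable section

namespace Fermat.Agent.S43.Tan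

open Fermat.Agent.S53 (G M2 HasMatrix)
open Fermat.Agent.S56
open Fermat.Agent.S56.C (ad rm IsCoc IsCob liftMat dn)

variable {k : Type} [Field k] {A : Type} [CommRing A] [Algebra k A]

theorem selProps_of_rep [IsLocalRing A] {p : ℕ} (hpp : p.Prime) (hp : (p : k) = 0)
    (r : G →* GL (Fin 2) k) (R : G → M2 A) (ρA : GaloisRepAdic A) (hm : HasMatrix ρA R)
    (S' Sram : Finset ℕ) (hdet : ρA.DetIsCyclotomic p) (hflat : ρA.IsFlatAt p)
    (hunr : ∀ q : ℕ, q.Prime → q ∉ S' → ρA.IsUnramifiedAt q)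
    (hunip : ∀ q ∈ Sram, q.Prime → q ≠ p → ρA.IsUnipotentOnInertiaAt q)
    (φ : A →ₐ[k] DualNumber k) (c : G → M2 k) (hs : Function.Surjective φ)
    (hc : ∀ σ, (R σ).map φ = liftMat r c σ) : SelProps r c p S' Sram := by
  have hφ : IsLocalHom (φ : A →+* DualNumber k) := IsLocalHom.of_surjective _ hs
  have hm' : HasMatrix (ρA.baseChangeAlong (φ : A →+* DualNumber k) hφ) (liftMat r c) := by
    have h1 := hm.baseChangeAlong (φ : A →+* DualNumber k) hφ
    have h2 : (fun σ => (R σ).map (φ : A →+* DualNumber k)) = liftMat r c := funext hc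
    rwa [h2] at h1
  refine ⟨(C.liftMat_mul_iff r c).1 hm'.isMatRep.map_mul, C.smooth_of_hasMatrix r hm',
    C.traceZero_of_det r hpp hp hm' (C.detIsCyclotomic_baseChange _ hφ hdet),
    fun q hq hqS => C.unramAt_of_hasMatrix r hm' (C.isUnramifiedAt_baseChange _ hφ (hunr q hq hqS)),
    ⟨_, hm', C.isFlatAt_baseChange_of_surjective _ hφ hs hflat⟩,
    fun q hq hq' hqp => C.unipAt_of_hasMatrix r hm'
      (C.isUnipotentOnInertiaAt_baseChange _ hφ (hunip q hq hq' hqp))⟩

theorem selProps_of_fun {p : ℕ} (r : G →* GL (Fin 2) k) (R : G → M2 A) (S' Sram : Finset ℕ)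
    (hmul : ∀ σ τ, R (σ * τ) = R σ * R τ)
    (hsm : ∃ L : IntermediateField ℚ (AlgebraicClosure ℚ), FiniteDimensional ℚ L ∧
      ∀ σ : G, (∀ x ∈ L, σ x = x) → R σ = 1)
    (hdet : ∀ σ, ∃ u : k, (R σ).det = algebraMap k A u)
    (hunr : ∀ q : ℕ, q.Prime → q ∉ S' → ∀ P : ValuationSubring (AlgebraicClosure ℚ),
      P.LiesOverPrime q → ∀ σ ∈ P.inertiaSubgroupIn ℚ, R σ = 1)
    (hunip : ∀ q ∈ Sram, q.Prime → q ≠ p → ∀ P : ValuationSubring (AlgebraicClosure ℚ),
      P.LiesOverPrime q → ∀ σ ∈ P.inertiaSubgroupIn ℚ, (R σ).trace = 2)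
    (φ : A →ₐ[k] DualNumber k) (c : G → M2 k) (hflat : C.FlatAt r c p)
    (hc : ∀ σ, (R σ).map φ = liftMat r c σ) : SelProps r c p S' Sram := by
  have hone : ∀ σ, R σ = 1 → c σ = 0 := by
    intro σ h
    refine C.eq_zero_of_liftMat_eq_one r ?_
    rw [← hc σ, h]
    exact (φ : A →+* DualNumber k).mapMatrix.map_one
  refine ⟨(C.liftMat_mul_iff r c).1 fun σ τ => ?_, ?_, fun σ => ?_, fun q hq hqS P hP σ hσ =>
    hone σ (hunr q hq hqS P hP σ hσ), hflat, fun q hq hq' hqp P hP σ hσ => ?_⟩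
  · rw [← hc, ← hc, ← hc, hmul]
    exact (φ : A →+* DualNumber k).mapMatrix.map_mul _ _
  · obtain ⟨L, hL, h⟩ := hsm
    exact ⟨L, hL, fun σ hσ => hone σ (h σ hσ)⟩
  · obtain ⟨u, hu⟩ := hdet σ
    have h1 : ((R σ).map φ).det = φ (R σ).det := by
      have := (φ : A →+* DualNumber k).map_det (R σ)
      exact this.symm
    rw [hc σ, C.liftMat_eq_dn, C.dn_det_mul, hu, AlgHom.commutes] at h1
    have h2 := congrArg TrivSqZeroExt.snd h1
    have h4 : (algebraMap k (DualNumber k) u).snd = 0 := rfl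
    rw [h4] at h2
    simp only [TrivSqZeroExt.snd_add, TrivSqZeroExt.snd_inl, TrivSqZeroExt.snd_inr, zero_add] at h2
    have h3 : (rm r σ).det ≠ 0 := by
      have : IsUnit (rm r σ).det := (Matrix.isUnit_iff_isUnit_det _).mp (r σ).isUnit
      exact this.ne_zero
    exact (mul_eq_zero.mp h2).resolve_left h3
  · have h1 : ((R σ).map φ).trace = φ (R σ).trace := by
      rw [Matrix.trace_fin_two, Matrix.trace_fin_two, map_add]
      rfl
    rw [hc σ, C.liftMat_eq_dn, C.dn_trace, hunip q hq hq' hqp P hP σ hσ, map_ofNat] at h1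
    have h2 := congrArg TrivSqZeroExt.snd h1
    have h5 : TrivSqZeroExt.snd (2 : DualNumber k) = 0 := by
      have : (2 : DualNumber k) = ((2 : ℕ) : DualNumber k) := by norm_cast
      rw [this, TrivSqZeroExt.snd_natCast]
    rw [h5] at h2
    simpa using h2

end Fermat.Agent.S43.Tan
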