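import Fermat.Agent.S43.Tan.Dual
import Fermat.Agent.S43.Tan.Rep

/-!
# S43 / Tan / Ker : TAN + COUNT in one theorem, all hypotheses in KERNEL form on `L`

`master_ker` = `tan_ideal` (with `I` = annihilator of `L[a,b,c]`) + passage to `L' = L[y^P]` (equal exponents) +
`count_false_ker` (count on the `k`-dual of `L'`).
-/

set_option autoImplicit false

open Matrix Module

noncomputable section

namespace Fermat.Agent.S43.Tan

open Fermat.Agent.S53 (G M2 HasMatrix)
open Fermat.Agent.S56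
open Fermat.Agent.S56.C (ad rm IsCoc IsCob liftMat dn)

section alg

variable {k A L : Type*} [Field k] [CommRing A] [Algebra k A] [AddCommGroup L] [Module k L]
  [Module A L] [IsScalarTower k A L]

/-- common kernel of a family, as an `A`-submodule. -/
def kerA {ι : Type*} (L : Type*) {A : Type*} [CommRing A] [AddCommGroup L] [Module A L] (y : ι → A) :
    Submodule A L where
  carrier := {l | ∀ i, y i • l = 0}
  add_mem' := fun {u v} hu hv i => by rw [smul_add, hu i, hv i, add_zero]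
  zero_mem' := fun i => smul_zero _
  smul_mem' := fun c u hu i => by rw [smul_comm, hu i, smul_zero]

theorem mem_kerA {ι : Type*} {y : ι → A} {l : L} : l ∈ kerA L y ↔ ∀ i, y i • l = 0 := Iff.rfl

/-- **count, kernel form, unequal exponents.** -/
theorem count_false_ker' [FiniteDimensional k L] {t g r : ℕ} (P d : ℕ) (Pi : Fin r → ℕ)
    (hP1 : 1 ≤ P) (hPi : ∀ i, P ≤ Pi i)
    (a b c : Fin t → A) (x : Fin g → A) (y : Fin r → A)
    (hrel : ∀ j (l : L), (a j ^ 2 + b j * c j) • l = 0)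
    (hyP : ∀ i (l : L), y i ^ Pi i • l = 0)
    (hnb : ∀ j, ∃ n, ∀ l : L, b j ^ n • l = 0)
    (hnc : ∀ j, ∃ n, ∀ l : L, c j ^ n • l = 0)
    (hnx : ∀ i, ∃ n, ∀ l : L, x i ^ n • l = 0)
    (hy : ∀ i (l : L), (∀ j, a j • l = 0) → (∀ j, b j • l = 0) → (∀ j, c j • l = 0) →
      (∀ i', x i' • l = 0) → y i • l = 0)
    (hA : ∃ v : L, (∏ i, y i ^ (Pi i - 1)) • v ≠ 0)
    (hB : finrank k (kerFam k L y) ≤ d)
    (hdim : 2 * t + g < r)
    (hP : d * 2 ^ t * (d * (r + 1)) ^ (2 * t + g) < P) : False := by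
  classical
  set L' : Submodule A L := kerA L (fun i => y i ^ P) with hL'
  haveI : FiniteDimensional k L' :=
    FiniteDimensional.of_injective (L'.subtype.restrictScalars k) Subtype.val_injective
  have hz : ∀ {z : A}, (∀ l : L, z • l = 0) → ∀ l : L', z • l = 0 :=
    fun h l => Subtype.ext (h l.1)
  have hcoe : ∀ (z : A) (l : L'), z • l = 0 ↔ z • (l : L) = 0 := by
    intro z l
    rw [← Submodule.coe_smul, ← ZeroMemClass.coe_eq_zero]
  refine count_false_ker (k := k) (L := L') P d a b c x y (fun j => hz (hrel j)) ?_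
    (fun j => (hnb j).imp fun n h => hz h) (fun j => (hnc j).imp fun n h => hz h)
    (fun j => (hnx j).imp fun n h => hz h) ?_ ?_ ?_ hdim hP
  · intro i l
    exact Subtype.ext (l.2 i)
  · intro i l h1 h2 h3 h4
    rw [hcoe]
    exact hy i l (fun j => (hcoe _ _).1 (h1 j)) (fun j => (hcoe _ _).1 (h2 j))
      (fun j => (hcoe _ _).1 (h3 j)) (fun j => (hcoe _ _).1 (h4 j))
  · obtain ⟨v, hv⟩ := hA
    have hmem : (∏ i, y i ^ (Pi i - P)) • v ∈ L' := by
      intro j
      change y j ^ P • (∏ i, y i ^ (Pi i - P)) • v = 0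
      rw [← Finset.mul_prod_erase Finset.univ _ (Finset.mem_univ j), smul_smul, ← mul_assoc,
        ← pow_add, Nat.add_sub_cancel' (hPi j), mul_comm, mul_smul, hyP, smul_zero]
    refine ⟨⟨_, hmem⟩, ?_⟩
    rw [Ne, hcoe]
    change ¬ (∏ i, y i ^ (P - 1)) • (∏ i, y i ^ (Pi i - P)) • v = 0
    rw [smul_smul, ← Finset.prod_mul_distrib]
    have : ∀ i, y i ^ (P - 1) * y i ^ (Pi i - P) = y i ^ (Pi i - 1) := by
      intro i
      rw [← pow_add]
      congr 1
      have := hPi i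
      omega
    simp only [this]
    exact hv
  · refine le_trans ?_ hB
    let f : kerFam k L' y →ₗ[k] kerFam k L y :=
      { toFun := fun l => ⟨(l.1 : L), fun i => (hcoe _ _).1 (l.2 i)⟩
        map_add' := fun u v => rfl
        map_smul' := fun c u => rfl }
    refine LinearMap.finrank_le_finrank_of_injective (f := f) ?_
    intro u v h
    have := congrArg (fun w : kerFam k L y => (w : L)) h
    exact Subtype.ext (Subtype.ext this)

end alg

variable {k : Type} [Field k] {A : Type} [CommRing A] [Algebra k A]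

/-- **MASTER THEOREM (TAN + COUNT), kernel form.** -/
theorem master_ker [Finite k] [Module.Finite k A] (h2 : (2 : k) ≠ 0) (π : A →ₐ[k] k)
    (hnil : ∃ N, (RingHom.ker π : Ideal A) ^ N = ⊥)
    (r : G →* GL (Fin 2) k) (R : G → M2 A) (hR : ∀ σ, (R σ).map π = rm r σ)
    (htr : Algebra.adjoin k (Set.range fun σ => (R σ).trace) = ⊤)
    (p : ℕ) (S' Sram : Finset ℕ)
    (hprop : ∀ (φ : A →ₐ[k] DualNumber k) (c : G → M2 k), Function.Surjective φ →
      (∀ σ, (R σ).map φ = liftMat r c σ) → SelProps r c p S' Sram)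
    (D : Set G) (hrs : ∀ σ ∈ D, ∃ a : k, rm r σ = a • (1 : M2 k))
    {L : Type*} [AddCommGroup L] [Module k L] [Module A L] [IsScalarTower k A L]
    [FiniteDimensional k L] {t : ℕ} (a b c : Fin t → A)
    (ha : ∀ j, a j ∈ RingHom.ker π) (hb : ∀ j, b j ∈ RingHom.ker π) (hc : ∀ j, c j ∈ RingHom.ker π)
    (hrel : ∀ j (l : L), (a j ^ 2 + b j * c j) • l = 0)
    (hscal : ∀ σ ∈ D, ∀ z ∈ ({R σ 0 1, R σ 1 0, R σ 0 0 - R σ 1 1} : Set A), ∀ l : L,
      (∀ j, a j • l = 0) → (∀ j, b j • l = 0) → (∀ j, c j • l = 0) → z • l = 0)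
    (T₁ : Finset (G → M2 k)) (g : ℕ) (hcard : T₁.card ≤ Nat.card k ^ g)
    (ht0 : ∃ t ∈ T₁, IsCob r t)
    (hT : ∀ c, IsCoc r c → C.Smooth c → C.TraceZero c →
      (∀ q : ℕ, q.Prime → q ∉ S' → C.UnramAt c q) → C.FlatAt r c p →
      (∀ q ∈ Sram, q.Prime → q ≠ p → C.UnipAt r c q) → (∀ σ ∈ D, c σ = 0) →
      ∃ t ∈ T₁, IsCob r (c - t))
    {n₀ : ℕ} (y : Fin n₀ → A) (hyπ : ∀ i, y i ∈ RingHom.ker π) (P d : ℕ) (Pi : Fin n₀ → ℕ)
    (hP1 : 1 ≤ P) (hPi : ∀ i, P ≤ Pi i)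
    (hyP : ∀ i (l : L), y i ^ Pi i • l = 0)
    (hA : ∃ v : L, (∏ i, y i ^ (Pi i - 1)) • v ≠ 0)
    (hB : finrank k (kerFam k L y) ≤ d)
    (hdim : 2 * t + g < n₀)
    (hP : d * 2 ^ t * (d * (n₀ + 1)) ^ (2 * t + g) < P) : False := by
  set LJ : Submodule A L := kerA L a ⊓ kerA L b ⊓ kerA L c with hLJ
  obtain ⟨x, hx, hle⟩ := tan_ideal h2 π hnil r R hR htr p S' Sram hprop D hrs LJ.annihilator
    (by
      intro σ hσ
      have h := hscal σ hσ
      refine ⟨?_, ?_, ?_⟩ <;> rw [Submodule.mem_annihilator] <;> rintro l ⟨⟨h1, h2⟩, h3⟩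
      · exact h _ (by simp) l h1 h2 h3
      · exact h _ (by simp) l h1 h2 h3
      · exact h _ (by simp) l h1 h2 h3)
    T₁ g hcard ht0 hT
  have hnilp : ∀ z ∈ (RingHom.ker π : Ideal A), ∃ n, ∀ l : L, z ^ n • l = 0 := by
    intro z hz
    obtain ⟨N, hN⟩ := hnil
    refine ⟨N, fun l => ?_⟩
    have : z ^ N ∈ (RingHom.ker π : Ideal A) ^ N := Ideal.pow_mem_pow hz N
    rw [hN, Ideal.mem_bot] at this
    rw [this, zero_smul]
  refine count_false_ker' (k := k) (L := L) P d Pi hP1 hPi a b c x y hrel hyP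
    (fun j => hnilp _ (hb j)) (fun j => hnilp _ (hc j)) (fun i => hnilp _ (hx i)) ?_ hA hB hdim hP
  intro i l h1 h2' h3 h4
  obtain ⟨z, hz, w, hw, hzw⟩ := Submodule.mem_sup.1 (hle (hyπ i))
  rw [← hzw, add_smul, (Submodule.mem_annihilator.1 hz) l ⟨⟨h1, h2'⟩, h3⟩, zero_add]
  obtain ⟨e, rfl⟩ := (Ideal.mem_span_range_iff_exists_fun).1 hw
  rw [Finset.sum_smul]
  refine Finset.sum_eq_zero fun i' _ => ?_
  rw [mul_smul, h4 i', smul_zero]

end Fermat.Agent.S43.Tan
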