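import Mathlib

/-!
# S43 / Tan / Alg : tangent space of an augmented artinian `k`-algebra (pure algebra)

`A` a commutative `k`-algebra with an augmentation `π : A →ₐ[k] k`, `n = ker π` nilpotent, `I ≤ n` an ideal.
* `tanDual π I` : the `k`-linear forms on `A` killing `1`, `I` and `n²` (= dual of `n/(n² + I)`);
* `homOf` : the `k`-algebra hom `A → k[ε]`, `a ↦ π a + ε l a`;
* `exists_gens` : if `#tanDual ≤ #k ^ g` then `n = I + (x₁, …, x_g)`.
-/

set_option autoImplicit false

namespace Fermat.Agent.S43.Tan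

open Module

variable {k A : Type*} [Field k] [CommRing A] [Algebra k A]

/-- the `k`-subspace `k·1 + I + n²` of `A`. -/
def tanSub (π : A →ₐ[k] k) (I : Ideal A) : Submodule k A :=
  (I ⊔ (RingHom.ker π) ^ 2).restrictScalars k ⊔ Submodule.span k {1}

/-- linear forms killing `1`, `I`, `n²`. -/
def tanDual (π : A →ₐ[k] k) (I : Ideal A) : Submodule k (Module.Dual k A) :=
  (tanSub π I).dualAnnihilator

variable {π : A →ₐ[k] k} {I : Ideal A}

theorem tanDual_one {l : Module.Dual k A} (h : l ∈ tanDual π I) : l 1 = 0 :=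
  (Submodule.mem_dualAnnihilator l).1 h 1
    (Submodule.mem_sup_right (Submodule.mem_span_singleton_self 1))

theorem tanDual_algebraMap {l : Module.Dual k A} (h : l ∈ tanDual π I) (c : k) :
    l (algebraMap k A c) = 0 := by
  rw [Algebra.algebraMap_eq_smul_one, map_smul, tanDual_one h, smul_zero]

theorem tanDual_mem {l : Module.Dual k A} (h : l ∈ tanDual π I) {w : A} (hw : w ∈ I) : l w = 0 :=
  (Submodule.mem_dualAnnihilator l).1 h w
    (Submodule.mem_sup_left (show w ∈ I ⊔ (RingHom.ker π) ^ 2 from Ideal.mem_sup_left hw))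

theorem tanDual_mul {l : Module.Dual k A} (h : l ∈ tanDual π I) {u v : A}
    (hu : u ∈ RingHom.ker π) (hv : v ∈ RingHom.ker π) : l (u * v) = 0 := by
  refine (Submodule.mem_dualAnnihilator l).1 h (u * v) (Submodule.mem_sup_left ?_)
  have : u * v ∈ (RingHom.ker π) ^ 2 := by
    rw [sq]
    exact Ideal.mul_mem_mul hu hv
  exact (show u * v ∈ I ⊔ (RingHom.ker π) ^ 2 from Ideal.mem_sup_right this)

theorem sub_algebraMap_mem_ker (π : A →ₐ[k] k) (a : A) : a - algebraMap k A (π a) ∈ RingHom.ker π := by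
  rw [RingHom.mem_ker, map_sub, AlgHom.commutes]
  simp

/-- Leibniz rule. -/
theorem tanDual_leibniz {l : Module.Dual k A} (h : l ∈ tanDual π I) (a b : A) :
    l (a * b) = π a * l b + π b * l a := by
  have h1 := tanDual_mul h (sub_algebraMap_mem_ker π a) (sub_algebraMap_mem_ker π b)
  have h2 : a * b = (a - algebraMap k A (π a)) * (b - algebraMap k A (π b)) + π a • b + π b • a
      - algebraMap k A (π a * π b) := by
    rw [Algebra.smul_def, Algebra.smul_def, map_mul]
    ring
  rw [h2, map_sub, map_add, map_add, h1, map_smul, map_smul, tanDual_algebraMap h]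
  simp

/-- the hom `a ↦ π a + ε l a`. -/
noncomputable def homOf (π : A →ₐ[k] k) (I : Ideal A) (l : tanDual π I) : A →ₐ[k] DualNumber k :=
  AlgHom.ofLinearMap
    ((TrivSqZeroExt.inlAlgHom k k k).toLinearMap ∘ₗ π.toLinearMap + (TrivSqZeroExt.inrHom k k) ∘ₗ l.1)
    (by
      ext
      · simp
      · simp [tanDual_one l.2])
    (by
      intro a b
      ext
      · simp
      · simp [tanDual_leibniz l.2 a b, mul_comm])

@[simp] theorem fst_homOf (l : tanDual π I) (a : A) : (homOf π I l a).fst = π a := by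
  simp [homOf]

@[simp] theorem snd_homOf (l : tanDual π I) (a : A) : (homOf π I l a).snd = l.1 a := by
  simp [homOf]

theorem homOf_mem (l : tanDual π I) (hI : I ≤ RingHom.ker π) {z : A} (hz : z ∈ I) :
    homOf π I l z = 0 := by
  ext
  · rw [fst_homOf]
    exact hI hz
  · rw [snd_homOf]
    exact tanDual_mem l.2 hz

theorem homOf_injective : Function.Injective (homOf π I) := by
  intro l l' h
  apply Subtype.ext
  apply LinearMap.ext
  intro a
  rw [← snd_homOf, h, snd_homOf]

theorem homOf_surjective {l : tanDual π I} (hl : l ≠ 0) : Function.Surjective (homOf π I l) := by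
  have : ∃ a, l.1 a ≠ 0 := by
    by_contra hcon
    push Not at hcon
    exact hl (Subtype.ext (LinearMap.ext hcon))
  obtain ⟨a, ha⟩ := this
  intro y
  refine ⟨algebraMap k A y.fst + (y.snd * (l.1 a)⁻¹) • (a - algebraMap k A (π a)), ?_⟩
  ext
  · rw [fst_homOf, map_add, map_smul, AlgHom.commutes]
    have := sub_algebraMap_mem_ker π a
    rw [RingHom.mem_ker] at this
    have h2 : π (a - algebraMap k A (π a)) = 0 := this
    rw [h2]
    simp
  · rw [snd_homOf, map_add, map_smul, map_sub, tanDual_algebraMap l.2, tanDual_algebraMap l.2]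
    simp [ha]

/-- nilpotent Nakayama. -/
theorem le_of_le_sup_sq {n B : Ideal A} (hnil : ∃ N, n ^ N = ⊥) (h : n ≤ B ⊔ n ^ 2) : n ≤ B := by
  have key : ∀ m : ℕ, n ≤ B ⊔ n ^ m := by
    intro m
    induction m with
    | zero => simp
    | succ m ih =>
      refine h.trans (sup_le le_sup_left ?_)
      calc n ^ 2 = n * n := sq n
        _ ≤ (B ⊔ n ^ m) * n := Ideal.mul_mono_left ih
        _ = B * n ⊔ n ^ m * n := Ideal.sup_mul _ _ _
        _ ≤ B ⊔ n ^ (m + 1) := sup_le_sup Ideal.mul_le_left (by rw [pow_succ])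
  obtain ⟨N, hN⟩ := hnil
  have := key N
  rwa [hN, sup_bot_eq] at this

/-- few tangent vectors ⇒ few generators. -/
theorem exists_gens [Finite k] [Module.Finite k A] (π : A →ₐ[k] k) (I : Ideal A)
    (hI : I ≤ RingHom.ker π) (hnil : ∃ N, (RingHom.ker π : Ideal A) ^ N = ⊥) (g : ℕ)
    (hcard : Nat.card (tanDual π I) ≤ Nat.card k ^ g) :
    ∃ x : Fin g → A, (∀ i, x i ∈ RingHom.ker π) ∧
      (RingHom.ker π : Ideal A) ≤ I ⊔ Ideal.span (Set.range x) := by
  classical
  set U := tanSub π I with hU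
  have hd : finrank k (A ⧸ U) ≤ g := by
    have h1 := Module.natCard_eq_pow_finrank (K := k) (V := tanDual π I)
    rw [h1] at hcard
    have h2 : finrank k (tanDual π I) ≤ g := (Nat.pow_le_pow_iff_right Finite.one_lt_card).mp hcard
    have h3 := Subspace.finrank_add_finrank_dualAnnihilator_eq U
    have h4 := Submodule.finrank_quotient_add_finrank U
    have h5 : finrank k (tanDual π I) = finrank k U.dualAnnihilator := rfl
    omega
  let b := Module.finBasis k (A ⧸ U)
  let y : Fin g → A ⧸ U := fun i => if h : i.val < finrank k (A ⧸ U) then b ⟨i.val, h⟩ else 0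
  have hy : Submodule.span k (Set.range y) = ⊤ := by
    rw [eq_top_iff, ← b.span_eq, Submodule.span_le]
    rintro _ ⟨i, rfl⟩
    refine Submodule.subset_span ⟨⟨i.val, lt_of_lt_of_le i.2 hd⟩, ?_⟩
    simp [y]
  have hlift : ∀ i, ∃ a : A, Submodule.Quotient.mk (p := U) a = y i :=
    fun i => Submodule.Quotient.mk_surjective U (y i)
  choose x' hx' using hlift
  refine ⟨fun i => x' i - algebraMap k A (π (x' i)), fun i => sub_algebraMap_mem_ker π _, ?_⟩
  set x : Fin g → A := fun i => x' i - algebraMap k A (π (x' i)) with hx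
  apply le_of_le_sup_sq hnil
  intro a ha
  have h1 : Submodule.Quotient.mk (p := U) a ∈ Submodule.span k (Set.range y) := by
    rw [hy]; trivial
  obtain ⟨c, hc⟩ := (Submodule.mem_span_range_iff_exists_fun k).1 h1
  have h2 : a - ∑ i, c i • x' i ∈ U := by
    rw [← Submodule.Quotient.mk_eq_zero, Submodule.Quotient.mk_sub, ← hc, sub_eq_zero]
    rw [← Submodule.mkQ_apply, map_sum]
    refine Finset.sum_congr rfl fun i _ => ?_
    rw [map_smul, Submodule.mkQ_apply, hx']
  obtain ⟨w, hw, e1, he1, hwe⟩ := Submodule.mem_sup.1 h2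
  obtain ⟨e, rfl⟩ := Submodule.mem_span_singleton.1 he1
  have hw' : w ∈ I ⊔ (RingHom.ker π : Ideal A) ^ 2 := hw
  have hwk : π w = 0 := by
    have : I ⊔ (RingHom.ker π : Ideal A) ^ 2 ≤ RingHom.ker π :=
      sup_le hI (Ideal.pow_le_self two_ne_zero)
    exact this hw'
  have hxk : ∀ i, π (x i) = 0 := fun i => sub_algebraMap_mem_ker π _
  -- `a = w + ∑ c i • x i + (e + ∑ c i π (x' i)) • 1`
  have h3 : a = w + ∑ i, c i • x i + (e + ∑ i, c i * π (x' i)) • (1 : A) := by
    have h4 : ∑ i, c i • x' i = ∑ i, c i • x i + (∑ i, c i * π (x' i)) • (1 : A) := by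
      rw [Finset.sum_smul, ← Finset.sum_add_distrib]
      refine Finset.sum_congr rfl fun i _ => ?_
      rw [hx]
      simp only
      rw [smul_sub, mul_smul, ← Algebra.algebraMap_eq_smul_one]
      abel
    have h5 : a = w + e • (1 : A) + ∑ i, c i • x' i := by
      rw [hwe]; abel
    rw [h5, h4, add_smul]
    abel
  have h6 : e + ∑ i, c i * π (x' i) = 0 := by
    have h7 := congrArg π h3
    have ha' : π a = 0 := ha
    rw [ha', map_add, map_add, hwk, map_sum, map_smul, map_one] at h7
    simp only [map_smul, hxk, smul_eq_mul, mul_zero, Finset.sum_const_zero, zero_add, mul_one] at h7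
    exact h7.symm
  rw [h6, zero_smul, add_zero] at h3
  rw [h3]
  have h8 : ∑ i, c i • x i ∈ Ideal.span (Set.range x) := by
    refine Ideal.sum_mem _ fun i _ => ?_
    rw [Algebra.smul_def]
    exact Ideal.mul_mem_left _ _ (Ideal.subset_span ⟨i, rfl⟩)
  obtain ⟨w1, hw1, w2, hw2, rfl⟩ := Submodule.mem_sup.1 hw'
  have h9 : w1 + w2 + ∑ i, c i • x i = (w1 + ∑ i, c i • x i) + w2 := by abel
  rw [h9]
  exact Ideal.add_mem _ (Ideal.mem_sup_left (Ideal.add_mem _ (Ideal.mem_sup_left hw1)
    (Ideal.mem_sup_right h8))) (Ideal.mem_sup_right hw2)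

end Fermat.Agent.S43.Tan
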