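import Fermat.Agent.S43.Tan.Alg
import Fermat.Agent.S56.C.LiftForm

/-!
# S43 / Tan / Core : tangent space -> cocycle classes (function level)

`A` an augmented artinian `k`-algebra generated by the traces of `R : G → M₂(A)`, `R ≡ r` modulo `n = ker π`.
If the cocycles of the infinitesimal lifts `φ ∘ R` (`φ : A → k[ε]` SURJECTIVE, killing `I`) are covered modulo coboundaries
by a set `T₁` with `#T₁ ≤ #k ^ g` (containing a coboundary), then `n = I + (x₁, …, x_g)`.
-/

set_option autoImplicit false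

open Matrix

noncomputable section

namespace Fermat.Agent.S43.Tan

open Fermat.Agent.S53 (G M2)
open Fermat.Agent.S56.C (ad rm IsCoc IsCob liftMat dn)

variable {k : Type} [Field k] {A : Type} [CommRing A] [Algebra k A]

/-- the cocycle of the linear form `l`. -/
def cocOf (r : G →* GL (Fin 2) k) (R : G → M2 A) (l : A → k) : G → M2 k :=
  fun σ => (R σ).map l * (((r σ)⁻¹ : GL (Fin 2) k) : M2 k)

theorem cocOf_mul_rm (r : G →* GL (Fin 2) k) (R : G → M2 A) (l : A → k) (σ : G) :
    cocOf r R l σ * rm r σ = (R σ).map l := by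
  rw [cocOf, Matrix.mul_assoc, Fermat.Agent.S56.C.inv_mul_rm, Matrix.mul_one]

theorem map_homOf_eq_liftMat {π : A →ₐ[k] k} {I : Ideal A} (r : G →* GL (Fin 2) k) (R : G → M2 A)
    (hR : ∀ σ, (R σ).map π = rm r σ) (l : tanDual π I) (σ : G) :
    (R σ).map (homOf π I l) = liftMat r (cocOf r R l.1) σ := by
  rw [Fermat.Agent.S56.C.liftMat_eq_dn, cocOf_mul_rm, ← hR σ]
  ext i j
  · simp [Fermat.Agent.S56.C.dn_apply]
  · simp [Fermat.Agent.S56.C.dn_apply]

/-- cohomologous cocycles have the same "trace". -/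
theorem trace_mul_rm_eq_of_isCob (r : G →* GL (Fin 2) k) {c c' : G → M2 k} (h : IsCob r (c - c'))
    (σ : G) : (c σ * rm r σ).trace = (c' σ * rm r σ).trace := by
  obtain ⟨X, hX⟩ := h
  have h1 := hX σ
  rw [Pi.sub_apply] at h1
  have h2 : c σ * rm r σ - c' σ * rm r σ = rm r σ * X - X * rm r σ := by
    rw [← Matrix.sub_mul, h1, Matrix.sub_mul, Fermat.Agent.S56.C.ad_mul_rm]
  have h3 := congrArg Matrix.trace h2
  rw [Matrix.trace_sub, Matrix.trace_sub, Matrix.trace_mul_comm (rm r σ) X, sub_self, sub_eq_zero] at h3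
  exact h3

theorem trace_map_linear (l : Module.Dual k A) (M : M2 A) : (M.map l).trace = l M.trace := by
  rw [Matrix.trace_fin_two, Matrix.trace_fin_two, map_add]
  rfl

/-- **Core of block TAN.** -/
theorem tan_core [Finite k] [Module.Finite k A] (π : A →ₐ[k] k)
    (hnil : ∃ N, (RingHom.ker π : Ideal A) ^ N = ⊥)
    (r : G →* GL (Fin 2) k) (R : G → M2 A) (hR : ∀ σ, (R σ).map π = rm r σ)
    (htr : Algebra.adjoin k (Set.range fun σ => (R σ).trace) = ⊤)
    (I : Ideal A) (hI : I ≤ RingHom.ker π)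
    (T₁ : Finset (G → M2 k)) (g : ℕ) (hcard : T₁.card ≤ Nat.card k ^ g)
    (ht0 : ∃ t ∈ T₁, IsCob r t)
    (hcov : ∀ (φ : A →ₐ[k] DualNumber k) (c : G → M2 k), Function.Surjective φ →
      (∀ z ∈ I, φ z = 0) → (∀ σ, (R σ).map φ = liftMat r c σ) → ∃ t ∈ T₁, IsCob r (c - t)) :
    ∃ x : Fin g → A, (∀ i, x i ∈ RingHom.ker π) ∧
      (RingHom.ker π : Ideal A) ≤ I ⊔ Ideal.span (Set.range x) := by
  classical
  refine exists_gens π I hI hnil g ?_
  have h1 : ∀ l : tanDual π I, ∃ t ∈ T₁, IsCob r (cocOf r R l.1 - t) := by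
    intro l
    by_cases hl : l = 0
    · obtain ⟨t0, ht0, hc0⟩ := ht0
      refine ⟨t0, ht0, ?_⟩
      have h0 : cocOf r R (l.1 : A → k) = 0 := by
        funext σ
        rw [hl, cocOf]
        have : (R σ).map (((0 : tanDual π I) : Module.Dual k A) : A → k) = 0 := by
          ext i j
          simp
        rw [this, Matrix.zero_mul]
        rfl
      rw [h0]
      exact Fermat.Agent.S56.C.liftMat_sub_isCob_symm r (by simpa using hc0)
    · exact hcov (homOf π I l) _ (homOf_surjective hl) (fun z hz => homOf_mem l hI hz)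
        (map_homOf_eq_liftMat r R hR l)
  choose F hFT hF using h1
  have hinj : Function.Injective (fun l : tanDual π I => (⟨F l, hFT l⟩ : T₁)) := by
    intro l l' h
    have hFF : F l = F l' := congrArg Subtype.val h
    have hcob : IsCob r (cocOf r R l.1 - cocOf r R l'.1) := by
      refine Fermat.Agent.S56.C.isCob_trans r (hF l) ?_
      rw [hFF]
      exact Fermat.Agent.S56.C.liftMat_sub_isCob_symm r (hF l')
    apply homOf_injective
    refine AlgHom.ext_of_adjoin_eq_top htr ?_
    rintro _ ⟨σ, rfl⟩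
    have h2 := trace_mul_rm_eq_of_isCob r hcob σ
    rw [cocOf_mul_rm, cocOf_mul_rm, trace_map_linear, trace_map_linear] at h2
    ext
    · simp
    · simpa using h2
  refine le_trans (Nat.card_le_card_of_injective _ hinj) ?_
  rw [Nat.card_eq_fintype_card, Fintype.card_coe]
  exact hcard

end Fermat.Agent.S43.Tan
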