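import Fermat.Agent.S43.Tan.Core
import Fermat.Agent.S43.CountAbs
import Fermat.Agent.S56.C.Interface

/-!
# S43 / Tan / Sel : the infinitesimal lifts `φ ∘ R` are Selmer cocycles; export of block TAN

* `SelProps` : the list of properties consumed by `GWS.tw_strict` (except strictness);
* `strict_of_scalar` : `R σ` scalar modulo `I`, `φ(I) = 0`, `tr c = 0`, `2 ≠ 0`  ⇒  `c σ = 0`;
* `selProps_of_rep` : from a `GaloisRepAdic A` with matrix `R`;
* `selProps_of_fun` : from function level properties of `R` (+ flatness of the lifts);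
* `tan_ideal`, `tan_module` : the exports (ideal form / the form consumed by `CountAbs.count_main`).
-/

set_option autoImplicit false

open Matrix IsLocalRing

noncomputable section

namespace Fermat.Agent.S43.Tan

open Fermat.Agent.S53 (G M2 HasMatrix)
open Fermat.Agent.S56
open Fermat.Agent.S56.C (ad rm IsCoc IsCob liftMat dn)
open Fermat.Agent.S43.CountAbs (mulTop)

variable {k : Type} [Field k] {A : Type} [CommRing A] [Algebra k A]

/-- the conditions of `GWS.tw_strict` on a cocycle, except the strict one. -/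
structure SelProps (r : G →* GL (Fin 2) k) (c : G → M2 k) (p : ℕ) (S' Sram : Finset ℕ) : Prop where
  coc : IsCoc r c
  smooth : C.Smooth c
  tr0 : C.TraceZero c
  unram : ∀ q : ℕ, q.Prime → q ∉ S' → C.UnramAt c q
  flat : C.FlatAt r c p
  unip : ∀ q ∈ Sram, q.Prime → q ≠ p → C.UnipAt r c q

/-- strictness. -/
theorem strict_of_scalar (h2 : (2 : k) ≠ 0) (r : G →* GL (Fin 2) k) (R : G → M2 A)
    (φ : A →ₐ[k] DualNumber k) {c : G → M2 k} (hc : ∀ σ, (R σ).map φ = liftMat r c σ)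
    (htr : C.TraceZero c) (σ : G) (h01 : φ (R σ 0 1) = 0) (h10 : φ (R σ 1 0) = 0)
    (hd : φ (R σ 0 0 - R σ 1 1) = 0) : c σ = 0 := by
  have h := hc σ
  rw [C.liftMat_eq_dn] at h
  set B := c σ * rm r σ with hB
  have e : ∀ i j, φ (R σ i j) = TrivSqZeroExt.inl (rm r σ i j) + TrivSqZeroExt.inr (B i j) := by
    intro i j
    have := congrFun (congrFun h i) j
    rwa [Matrix.map_apply, C.dn_apply] at this
  have f : ∀ i j, (φ (R σ i j)).fst = rm r σ i j := by
    intro i j; rw [e]; simp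
  have s : ∀ i j, (φ (R σ i j)).snd = B i j := by
    intro i j; rw [e]; simp
  rw [map_sub, sub_eq_zero] at hd
  -- `rm r σ` and `B` are scalar
  have r01 : rm r σ 0 1 = 0 := by rw [← f, h01]; rfl
  have r10 : rm r σ 1 0 = 0 := by rw [← f, h10]; rfl
  have r11 : rm r σ 1 1 = rm r σ 0 0 := by rw [← f, ← f, hd]
  have b01 : B 0 1 = 0 := by rw [← s, h01]; rfl
  have b10 : B 1 0 = 0 := by rw [← s, h10]; rfl
  have b11 : B 1 1 = B 0 0 := by rw [← s, ← s, hd]
  have hrs : rm r σ = (rm r σ 0 0) • (1 : M2 k) := by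
    ext i j
    fin_cases i <;> fin_cases j <;> simp [r01, r10, r11]
  have hBs : B = (B 0 0) • (1 : M2 k) := by
    ext i j
    fin_cases i <;> fin_cases j <;> simp [b01, b10, b11]
  have hu : rm r σ 0 0 ≠ 0 := by
    intro h0
    have h1 : rm r σ = 0 := by rw [hrs, h0, zero_smul]
    have h3 := C.rm_mul_inv r σ
    rw [h1, Matrix.zero_mul] at h3
    exact zero_ne_one h3
  -- `c σ = (B 0 0 / r 0 0) • 1`
  have hcs : (rm r σ 0 0) • c σ = (B 0 0) • (1 : M2 k) := by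
    rw [← hBs, hB]
    conv_rhs => rw [hrs]
    rw [Matrix.mul_smul, Matrix.mul_one]
  have ht := congrArg Matrix.trace hcs
  rw [Matrix.trace_smul, htr σ, smul_zero, Matrix.trace_smul, Matrix.trace_one] at ht
  have hb0 : B 0 0 = 0 := by
    have h4 : B 0 0 * 2 = 0 := by
      have := ht.symm
      simpa using this
    exact (mul_eq_zero.1 h4).resolve_right h2
  rw [hb0, zero_smul] at hcs
  exact (smul_eq_zero.1 hcs).resolve_left hu

/-- **Export of block TAN, ideal form.**  `D` = the union of the decomposition groups at the strict primes. -/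
theorem tan_ideal [Finite k] [Module.Finite k A] (h2 : (2 : k) ≠ 0) (π : A →ₐ[k] k)
    (hnil : ∃ N, (RingHom.ker π : Ideal A) ^ N = ⊥)
    (r : G →* GL (Fin 2) k) (R : G → M2 A) (hR : ∀ σ, (R σ).map π = rm r σ)
    (htr : Algebra.adjoin k (Set.range fun σ => (R σ).trace) = ⊤)
    (p : ℕ) (S' Sram : Finset ℕ)
    (hprop : ∀ (φ : A →ₐ[k] DualNumber k) (c : G → M2 k), Function.Surjective φ →
      (∀ σ, (R σ).map φ = liftMat r c σ) → SelProps r c p S' Sram)
    (D : Set G) (hrs : ∀ σ ∈ D, ∃ a : k, rm r σ = a • (1 : M2 k))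
    (I : Ideal A) (hscal : ∀ σ ∈ D, R σ 0 1 ∈ I ∧ R σ 1 0 ∈ I ∧ R σ 0 0 - R σ 1 1 ∈ I)
    (T₁ : Finset (G → M2 k)) (g : ℕ) (hcard : T₁.card ≤ Nat.card k ^ g)
    (ht0 : ∃ t ∈ T₁, IsCob r t)
    (hT : ∀ c, IsCoc r c → C.Smooth c → C.TraceZero c →
      (∀ q : ℕ, q.Prime → q ∉ S' → C.UnramAt c q) → C.FlatAt r c p →
      (∀ q ∈ Sram, q.Prime → q ≠ p → C.UnipAt r c q) → (∀ σ ∈ D, c σ = 0) →
      ∃ t ∈ T₁, IsCob r (c - t)) :
    ∃ x : Fin g → A, (∀ i, x i ∈ RingHom.ker π) ∧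
      (RingHom.ker π : Ideal A) ≤ I ⊔ Ideal.span (Set.range x) := by
  have hπ : ∀ σ i j, π (R σ i j) = rm r σ i j := by
    intro σ i j
    rw [← hR σ]
    rfl
  obtain ⟨x, hx, hle⟩ := tan_core π hnil r R hR htr (I ⊓ RingHom.ker π) inf_le_right T₁ g hcard ht0
    (by
      intro φ c hs hI hc
      have hp := hprop φ c hs hc
      refine hT c hp.coc hp.smooth hp.tr0 hp.unram hp.flat hp.unip fun σ hσ => ?_
      obtain ⟨a, ha⟩ := hrs σ hσ
      obtain ⟨h01, h10, hd⟩ := hscal σ hσ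
      refine strict_of_scalar h2 r R φ hc hp.tr0 σ (hI _ ⟨h01, ?_⟩) (hI _ ⟨h10, ?_⟩) (hI _ ⟨hd, ?_⟩)
      · change π (R σ 0 1) = 0
        rw [hπ, ha]; simp
      · change π (R σ 1 0) = 0
        rw [hπ, ha]; simp
      · change π (R σ 0 0 - R σ 1 1) = 0
        rw [map_sub, hπ, hπ, ha]; simp)
  exact ⟨x, hx, hle.trans (sup_le_sup_right inf_le_left _)⟩

/-- **Export of block TAN, module form** (the shape of `hy` in `CountAbs.count_main`). -/
theorem tan_module [Finite k] [Module.Finite k A] (h2 : (2 : k) ≠ 0) (π : A →ₐ[k] k)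
    (hnil : ∃ N, (RingHom.ker π : Ideal A) ^ N = ⊥)
    (r : G →* GL (Fin 2) k) (R : G → M2 A) (hR : ∀ σ, (R σ).map π = rm r σ)
    (htr : Algebra.adjoin k (Set.range fun σ => (R σ).trace) = ⊤)
    (p : ℕ) (S' Sram : Finset ℕ)
    (hprop : ∀ (φ : A →ₐ[k] DualNumber k) (c : G → M2 k), Function.Surjective φ →
      (∀ σ, (R σ).map φ = liftMat r c σ) → SelProps r c p S' Sram)
    (D : Set G) (hrs : ∀ σ ∈ D, ∃ a : k, rm r σ = a • (1 : M2 k))
    {L : Type*} [AddCommGroup L] [Module A L] {t : ℕ} (a b c : Fin t → A)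
    (hscal : ∀ σ ∈ D, ∀ z ∈ ({R σ 0 1, R σ 1 0, R σ 0 0 - R σ 1 1} : Set A), ∀ l : L,
      z • l ∈ (⨆ j, mulTop L (b j)) ⊔ (⨆ j, mulTop L (c j)) ⊔ (⨆ j, mulTop L (a j)))
    (T₁ : Finset (G → M2 k)) (g : ℕ) (hcard : T₁.card ≤ Nat.card k ^ g)
    (ht0 : ∃ t ∈ T₁, IsCob r t)
    (hT : ∀ c, IsCoc r c → C.Smooth c → C.TraceZero c →
      (∀ q : ℕ, q.Prime → q ∉ S' → C.UnramAt c q) → C.FlatAt r c p →
      (∀ q ∈ Sram, q.Prime → q ≠ p → C.UnipAt r c q) → (∀ σ ∈ D, c σ = 0) →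
      ∃ t ∈ T₁, IsCob r (c - t)) :
    ∃ x : Fin g → A, (∀ i, x i ∈ RingHom.ker π) ∧ (∀ i, ∃ n, ∀ l : L, x i ^ n • l = 0) ∧
      ∀ y ∈ RingHom.ker π, mulTop L y ≤ (⨆ j, mulTop L (b j)) ⊔ (⨆ j, mulTop L (c j)) ⊔
        (⨆ i, mulTop L (x i)) ⊔ (⨆ j, mulTop L (a j)) := by
  set JL : Submodule A L := (⨆ j, mulTop L (b j)) ⊔ (⨆ j, mulTop L (c j)) ⊔ (⨆ j, mulTop L (a j))
    with hJL
  obtain ⟨x, hx, hle⟩ := tan_ideal h2 π hnil r R hR htr p S' Sram hprop D hrs (JL.colon ⊤)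
    (by
      intro σ hσ
      have h := hscal σ hσ
      refine ⟨?_, ?_, ?_⟩ <;> rw [Submodule.mem_colon] <;> intro l _
      · exact h _ (by simp) l
      · exact h _ (by simp) l
      · exact h _ (by simp) l)
    T₁ g hcard ht0 hT
  refine ⟨x, hx, fun i => ?_, fun y hy => ?_⟩
  · obtain ⟨N, hN⟩ := hnil
    refine ⟨N, fun l => ?_⟩
    have : x i ^ N ∈ (RingHom.ker π : Ideal A) ^ N := Ideal.pow_mem_pow (hx i) N
    rw [hN, Ideal.mem_bot] at this
    rw [this, zero_smul]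
  · rintro _ ⟨l, rfl⟩
    simp only [LinearMap.lsmul_apply]
    obtain ⟨z, hz, w, hw, rfl⟩ := Submodule.mem_sup.1 (hle hy)
    rw [add_smul]
    refine Submodule.add_mem _ ?_ ?_
    · have h1 : z • l ∈ JL := (Submodule.mem_colon.1 hz) l trivial
      have h3 : JL ≤ (⨆ j, mulTop L (b j)) ⊔ (⨆ j, mulTop L (c j)) ⊔
          (⨆ i, mulTop L (x i)) ⊔ (⨆ j, mulTop L (a j)) :=
        sup_le_sup_right le_sup_left _
      exact h3 h1
    · obtain ⟨e, rfl⟩ := (Ideal.mem_span_range_iff_exists_fun).1 hw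
      rw [Finset.sum_smul]
      refine Submodule.sum_mem _ fun i _ => ?_
      refine Submodule.mem_sup_left (Submodule.mem_sup_right ?_)
      refine Submodule.mem_iSup_of_mem i ?_
      rw [mul_comm, mul_smul]
      exact ⟨e i • l, rfl⟩

end Fermat.Agent.S43.Tan
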